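import Mathlib.Analysis.SpecialFunctions.Gaussian.FourierTransform
import Mathlib.MeasureTheory.Integral.Prod

/-!
# Gaussian integrals with a complex linear term

The integrals needed for von Neumann's projection.
-/

set_option autoImplicit false
set_option linter.unusedSectionVars false
set_option linter.style.haveILetI false

noncomputable section

open MeasureTheory Complex
open scoped RealInnerProductSpace ComplexConjugate

namespace FA.StoneVonNeumann

variable {V : Type*} [NormedAddCommGroup V] [InnerProductSpace ℝ V] [FiniteDimensional ℝ V]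
  [MeasurableSpace V] [BorelSpace V]

/-- The Gaussian weight. -/
def gauss (x : V) : ℝ := Real.exp (-‖x‖ ^ 2 / 4)

theorem gauss_pos (x : V) : 0 < gauss x := Real.exp_pos _

theorem gauss_neg (x : V) : gauss (-x) = gauss x := by simp [gauss]

theorem gauss_zero : gauss (0 : V) = 1 := by simp [gauss]

theorem continuous_gauss : Continuous (gauss (V := V)) := by unfold gauss; fun_prop

theorem integrable_exp_neg {a : ℝ} (ha : 0 < a) :
    Integrable fun x : V => Real.exp (-a * ‖x‖ ^ 2) := by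
  have h := (GaussianFourier.integrable_cexp_neg_mul_sq_norm_add (b := (a : ℂ))
    (by simpa using ha) 0 (0 : V)).norm
  simpa [Complex.norm_exp, ← ofReal_pow, ← ofReal_mul, ← ofReal_neg] using h

theorem integrable_gauss : Integrable (gauss (V := V)) := by
  show Integrable fun x : V => Real.exp (-‖x‖ ^ 2 / 4)
  simpa [neg_div, div_eq_inv_mul] using integrable_exp_neg (V := V) (a := 4⁻¹) (by norm_num)

/-- The normalising constant. -/
def gaussMass (V : Type*) [NormedAddCommGroup V] [InnerProductSpace ℝ V] [FiniteDimensional ℝ V]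
    [MeasurableSpace V] [BorelSpace V] : ℝ :=
  ∫ x : V, Real.exp (-2⁻¹ * ‖x‖ ^ 2)

theorem gaussMass_pos : 0 < gaussMass V :=
  integral_exp_pos (integrable_exp_neg (by norm_num))

/-- The Fourier integral of the Gaussian. -/
theorem integral_gauss_fourier (q : V) :
    ∫ x : V, cexp (-(2⁻¹ * (‖x‖ : ℂ) ^ 2) + I * (⟪q, x⟫ : ℝ)) =
      (gaussMass V : ℂ) * cexp (-(2⁻¹ * (‖q‖ : ℂ) ^ 2)) := by
  have hb : (0 : ℝ) < (2⁻¹ : ℂ).re := by norm_num
  have e := GaussianFourier.integral_cexp_neg_mul_sq_norm_add hb I q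
  have e0 := GaussianFourier.integral_cexp_neg_mul_sq_norm_add hb 0 (0 : V)
  simp only [neg_mul, zero_mul, add_zero, ne_eq, OfNat.ofNat_ne_zero, not_false_eq_true,
    zero_pow, norm_zero, ofReal_zero, mul_zero, zero_div, Complex.exp_zero, mul_one] at e0
  simp only [neg_mul, I_sq] at e
  rw [gaussMass, ← integral_complex_ofReal, e, ← e0]
  congr 1
  · exact integral_congr_ae (.of_forall fun x => by push_cast; simp [neg_mul])
  · congr 1
    ring

/-- The Gaussian integral with a complex linear term. -/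
theorem integral_gauss_linear (p q : V) :
    ∫ x : V, cexp (-(2⁻¹ * (‖x‖ : ℂ) ^ 2) + ((⟪p, x⟫ : ℝ) : ℂ) + I * (⟪q, x⟫ : ℝ)) =
      (gaussMass V : ℂ) * cexp (2⁻¹ * ((‖p‖ : ℂ) ^ 2 - (‖q‖ : ℂ) ^ 2) + I * (⟪q, p⟫ : ℝ)) := by
  rw [← integral_add_right_eq_self _ p]
  have h : ∀ t : V, cexp (-(2⁻¹ * (‖t + p‖ : ℂ) ^ 2) + ((⟪p, t + p⟫ : ℝ) : ℂ) +
      I * (⟪q, t + p⟫ : ℝ)) = cexp (2⁻¹ * (‖p‖ : ℂ) ^ 2 + I * (⟪q, p⟫ : ℝ)) *
        cexp (-(2⁻¹ * (‖t‖ : ℂ) ^ 2) + I * (⟪q, t⟫ : ℝ)) := fun t => by
    rw [← Complex.exp_add, ← ofReal_pow ‖t + p‖, norm_add_sq_real, inner_add_right, inner_add_right,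
      real_inner_self_eq_norm_sq, real_inner_comm t p]
    push_cast
    ring_nf
  simp only [h]
  rw [integral_const_mul, integral_gauss_fourier, mul_left_comm, ← Complex.exp_add]
  ring_nf

end FA.StoneVonNeumann

end
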