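import Fermat.Agent.StoneVonNeumann.Fourier
import Fermat.Agent.StoneVonNeumann.Gaussian
import Mathlib.Analysis.InnerProductSpace.Adjoint
import Mathlib.MeasureTheory.Function.L2Space

/-!
# Weyl systems and von Neumann's projection

A Weyl system is a strongly continuous unitary solution of the commutation relations.  The average
of a system against a Gaussian is an orthogonal projection `P` with `P W y P` a multiple of `P`, and
its translates by the system separate points.
-/

set_option autoImplicit false
set_option linter.unusedSectionVars false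
set_option linter.style.haveILetI false

noncomputable section

open MeasureTheory Complex
open scoped InnerProductSpace ComplexConjugate

namespace FA.StoneVonNeumann

variable {V : Type*} [NormedAddCommGroup V] [InnerProductSpace ℝ V]
  {H : Type*} [NormedAddCommGroup H] [InnerProductSpace ℂ H] [CompleteSpace H]

/-- The symplectic form of an orthogonal complex structure. -/
def omega (J : V →ₗᵢ[ℝ] V) (x y : V) : ℝ := ⟪J x, y⟫_ℝ

/-- **A Weyl system**: a strongly continuous unitary solution of the commutation relations. -/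
structure IsWeylSystem (J : V →ₗᵢ[ℝ] V) (W : V → H →L[ℂ] H) : Prop where
  mul : ∀ x y v, W x (W y v) = cexp (I * (omega J x y : ℂ) / 2) • W (x + y) v
  zero : ∀ v, W 0 v = v
  norm_map : ∀ x v, ‖W x v‖ = ‖v‖
  continuous_apply : ∀ v, Continuous fun x => W x v

variable {J : V →ₗᵢ[ℝ] V} {W : V → H →L[ℂ] H} (hJ : ∀ x, J (J x) = -x)

theorem omega_add_left (x y z : V) : omega J (x + y) z = omega J x z + omega J y z := by
  simp [omega, inner_add_left]

theorem omega_add_right (x y z : V) : omega J x (y + z) = omega J x y + omega J x z :=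
  inner_add_right _ _ _

theorem omega_neg_left (x y : V) : omega J (-x) y = -omega J x y := by simp [omega]

theorem omega_neg_right (x y : V) : omega J x (-y) = -omega J x y := by simp [omega]

theorem omega_smul_right (x y : V) (t : ℝ) : omega J x (t • y) = t * omega J x y :=
  real_inner_smul_right _ _ _

include hJ

theorem omega_swap (x y : V) : omega J y x = -omega J x y := by
  rw [omega, omega, ← J.inner_map_map (J y) x, hJ, inner_neg_left, real_inner_comm]

theorem omega_self (x : V) : omega J x x = 0 := by linarith [omega_swap hJ x x]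

variable (hW : IsWeylSystem J W)

include hW

theorem apply_neg_apply (x : V) (v : H) : W (-x) (W x v) = v := by
  simp [hW.mul, omega_neg_left, omega_self hJ, hW.zero]

theorem apply_apply_neg (x : V) (v : H) : W x (W (-x) v) = v := by
  simpa using apply_neg_apply hJ hW (-x) v

theorem inner_map_left (x : V) (v w : H) : ⟪W x v, w⟫_ℂ = ⟪v, W (-x) w⟫_ℂ := by
  conv_lhs => rw [← apply_apply_neg hJ hW x w]
  exact (⟨(W x : H →ₗ[ℂ] H), hW.norm_map x⟩ : H →ₗᵢ[ℂ] H).inner_map_map v (W (-x) w)

theorem inner_map_right (x : V) (v w : H) : ⟪v, W x w⟫_ℂ = ⟪W (-x) v, w⟫_ℂ := by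
  rw [inner_map_left hJ hW, neg_neg]

/-- Conjugation by the system multiplies it by characters. -/
theorem conj_apply (y x : V) (v : H) :
    W y (W x (W (-y) v)) = cexp (I * (omega J y x : ℂ)) • W x v := by
  rw [hW.mul x (-y), map_smul, hW.mul, smul_smul, ← Complex.exp_add, add_comm x (-y),
    add_neg_cancel_left]
  congr 2
  rw [omega_add_right, omega_neg_right, omega_neg_right, omega_self hJ, omega_swap hJ y x]
  push_cast
  ring

omit hJ hW

variable [FiniteDimensional ℝ V] [MeasurableSpace V] [BorelSpace V]

theorem IsWeylSystem.integrable_gauss_smul (hW : IsWeylSystem J W) (v : H) :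
    Integrable fun x => (gauss x : ℂ) • W x v :=
  (integrable_gauss.mul_const ‖v‖).mono'
    ((continuous_ofReal.comp continuous_gauss).smul (hW.continuous_apply v)).aestronglyMeasurable
    (.of_forall fun x => by
      rw [norm_smul, hW.norm_map, norm_real, Real.norm_eq_abs, abs_of_pos (gauss_pos x)])

/-- The average of a system against the Gaussian, as a linear map. -/
def gaussMap (hW : IsWeylSystem J W) : H →ₗ[ℂ] H where
  toFun v := ((gaussMass V)⁻¹ : ℂ) • ∫ x, (gauss x : ℂ) • W x v
  map_add' v w := by
    simp only [map_add, smul_add]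
    rw [integral_add (hW.integrable_gauss_smul v) (hW.integrable_gauss_smul w), smul_add]
  map_smul' c v := by
    simp only [map_smul, RingHom.id_apply, smul_comm (_ : ℂ) c, integral_smul]

/-- **Von Neumann's projection.** -/
def gaussProj (hW : IsWeylSystem J W) : H →L[ℂ] H :=
  (gaussMap hW).mkContinuous (‖((gaussMass V)⁻¹ : ℂ)‖ * ∫ x : V, gauss x) fun v => by
    rw [gaussMap, LinearMap.coe_mk, AddHom.coe_mk, norm_smul, mul_assoc, ← integral_mul_const]
    gcongr
    refine (norm_integral_le_integral_norm _).trans_eq (integral_congr_ae (.of_forall fun x => ?_))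
    simp [norm_smul, hW.norm_map, abs_of_pos (gauss_pos x)]

theorem gaussProj_apply (hW : IsWeylSystem J W) (v : H) :
    gaussProj hW v = ((gaussMass V)⁻¹ : ℂ) • ∫ x, (gauss x : ℂ) • W x v :=
  rfl

include hJ hW

/-- The projection is symmetric. -/
theorem inner_gaussProj (v w : H) : ⟪gaussProj hW v, w⟫_ℂ = ⟪v, gaussProj hW w⟫_ℂ := by
  rw [← inner_conj_symm, gaussProj_apply, gaussProj_apply, inner_smul_right, inner_smul_right,
    ← integral_inner (hW.integrable_gauss_smul v), ← integral_inner (hW.integrable_gauss_smul w),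
    map_mul, ← integral_conj, ← integral_neg_eq_self (fun x => ⟪v, (gauss x : ℂ) • W x w⟫_ℂ)]
  congr 1
  · simp [← ofReal_inv]
  · refine integral_congr_ae (.of_forall fun x => ?_)
    simp only [gauss_neg, inner_smul_right, map_mul, conj_ofReal, inner_conj_symm,
      inner_map_left hJ hW]

omit hW in
/-- The phase computation behind `gaussProj_conj`. -/
theorem kernel_integral (y u : V) :
    ∫ x : V, (gauss x : ℂ) * ((gauss (u - (x + y)) : ℂ) *
        cexp (I * ((omega J x y + omega J (x + y) (u - (x + y)) : ℝ) : ℂ) / 2)) =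
      (gaussMass V : ℂ) * ((gauss y : ℂ) * (gauss u : ℂ)) := by
  simp only [← mul_assoc, ← ofReal_mul]
  rw [mul_assoc, ofReal_mul (gaussMass V)]
  set p : V := (2⁻¹ : ℝ) • (u - y) with hp
  set q : V := -((2⁻¹ : ℝ) • J (u + y)) with hq
  have h : ∀ x : V, ((gauss x * gauss (u - (x + y)) : ℝ) : ℂ) *
      cexp (I * ((omega J x y + omega J (x + y) (u - (x + y)) : ℝ) : ℂ) / 2) =
      cexp (-((‖u - y‖ : ℂ) ^ 2 / 4) + I * (omega J y u : ℂ) / 2) *
        cexp (-(2⁻¹ * (‖x‖ : ℂ) ^ 2) + ((⟪p, x⟫_ℝ : ℝ) : ℂ) + I * (⟪q, x⟫_ℝ : ℝ)) := fun x => by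
    have e1 : omega J x y + omega J (x + y) (u - (x + y)) = omega J y u + 2 * ⟪q, x⟫_ℝ := by
      have e3 : ⟪q, x⟫_ℝ = -(omega J (u + y) x) / 2 := by
        rw [hq, inner_neg_left, real_inner_smul_left, omega]
        ring
      rw [e3, sub_eq_add_neg, omega_add_right, omega_neg_right, omega_self hJ (x + y),
        omega_add_left x y u, omega_add_left u y x, omega_swap hJ x u, omega_swap hJ x y]
      ring
    have e2 : gauss x * gauss (u - (x + y)) =
        Real.exp (-(‖u - y‖ ^ 2 / 4) + (-(2⁻¹ * ‖x‖ ^ 2) + ⟪p, x⟫_ℝ)) := by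
      rw [gauss, gauss, ← Real.exp_add, show u - (x + y) = (u - y) - x by abel, norm_sub_sq_real,
        hp, real_inner_smul_left]
      ring_nf
    rw [e1, e2, ofReal_exp, ← Complex.exp_add, ← Complex.exp_add]
    push_cast
    ring_nf
  simp only [h]
  rw [integral_const_mul, integral_gauss_linear, mul_left_comm, ← Complex.exp_add, gauss, gauss,
    ← Real.exp_add, ofReal_exp]
  congr 2
  have e1 : (‖p‖ : ℝ) ^ 2 - ‖q‖ ^ 2 = -⟪u, y⟫_ℝ := by
    rw [hp, hq, norm_neg, norm_smul, norm_smul, J.norm_map, mul_pow, mul_pow, norm_sub_sq_real,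
      norm_add_sq_real]
    norm_num
    ring
  have e2 : ⟪q, p⟫_ℝ = -omega J y u / 2 := by
    rw [hq, hp, inner_neg_left, real_inner_smul_left, real_inner_smul_right]
    show -(2⁻¹ * (2⁻¹ * omega J (u + y) (u - y))) = _
    rw [sub_eq_add_neg, omega_add_right, omega_neg_right, omega_add_left, omega_add_left,
      omega_self hJ u, omega_self hJ y, omega_swap hJ y u]
    ring
  have e1' : (‖p‖ : ℂ) ^ 2 - (‖q‖ : ℂ) ^ 2 = -(⟪u, y⟫_ℝ : ℂ) := by exact_mod_cast e1
  rw [e1', e2, ← ofReal_pow ‖u - y‖, norm_sub_sq_real]
  push_cast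
  ring

theorem integrable_double (y : V) (v : H) :
    Integrable (Function.uncurry fun x u => ((gauss x * gauss (u - (x + y)) : ℝ) : ℂ) •
      (cexp (I * ((omega J x y + omega J (x + y) (u - (x + y)) : ℝ) : ℂ) / 2) • W u v))
      ((volume : Measure V).prod (volume : Measure V)) := by
  have hm : Continuous fun p : V × V => ((gauss p.1 * gauss (p.2 - (p.1 + y)) : ℝ) : ℂ) •
      (cexp (I * ((omega J p.1 y + omega J (p.1 + y) (p.2 - (p.1 + y)) : ℝ) : ℂ) / 2) •
        W p.2 v) := by
    have hv := (hW.continuous_apply v).comp (continuous_snd (X := V) (Y := V))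
    have := J.continuous
    refine (continuous_ofReal.comp ?_).smul (Continuous.smul ?_ hv)
    · unfold gauss
      fun_prop
    · simp only [omega]
      fun_prop
  refine (integrable_prod_iff hm.aestronglyMeasurable).2 ?_
  have hn : ∀ x u, ‖((gauss x * gauss (u - (x + y)) : ℝ) : ℂ) •
      (cexp (I * ((omega J x y + omega J (x + y) (u - (x + y)) : ℝ) : ℂ) / 2) • W u v)‖ =
      gauss x * gauss (u - (x + y)) * ‖v‖ := fun x u => by
    rw [norm_smul, norm_smul, hW.norm_map, norm_real, Real.norm_eq_abs,
      abs_of_pos (mul_pos (gauss_pos _) (gauss_pos _))]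
    simp [Complex.norm_exp]
  refine ⟨.of_forall fun x => ?_, ?_⟩
  · exact (((integrable_gauss.comp_sub_right (x + y)).const_mul (gauss x)).mul_const ‖v‖).mono'
      (hm.comp (Continuous.prodMk_right x)).aestronglyMeasurable (.of_forall fun u => (hn x u).le)
  · simp only [hn, integral_mul_const, integral_const_mul,
      integral_sub_right_eq_self (gauss (V := V))]
    exact (integrable_gauss.mul_const _).mul_const _

/-- **Von Neumann's identity.** -/
theorem gaussProj_conj (y : V) (v : H) :
    gaussProj hW (W y (gaussProj hW v)) = (gauss y : ℂ) • gaussProj hW v := by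
  have hc : (gaussMass V : ℂ) ≠ 0 := ofReal_ne_zero.2 gaussMass_pos.ne'
  have h1 : ∀ x : V, W x (W y (∫ z, (gauss z : ℂ) • W z v)) =
      ∫ u, (gauss (u - (x + y)) : ℂ) •
        (cexp (I * ((omega J x y + omega J (x + y) (u - (x + y)) : ℝ) : ℂ) / 2) • W u v) :=
    fun x => by
    rw [← (W y).integral_comp_comm (hW.integrable_gauss_smul v),
      ← (W x).integral_comp_comm ((W y).integrable_comp (hW.integrable_gauss_smul v)),
      ← integral_sub_right_eq_self _ (x + y)]
    refine integral_congr_ae (.of_forall fun u => ?_)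
    simp only [map_smul]
    rw [hW.mul x y, hW.mul (x + y), add_sub_cancel, smul_smul, smul_smul, smul_smul, mul_assoc,
      ← Complex.exp_add]
    push_cast
    ring_nf
  rw [gaussProj_apply hW, gaussProj_apply hW, map_smul]
  simp only [map_smul, h1, smul_comm ((gauss _ : ℝ) : ℂ) ((gaussMass V : ℂ)⁻¹), integral_smul]
  congr 1
  simp only [← integral_smul (gauss _ : ℂ), smul_smul (gauss _ : ℂ) (gauss _ : ℂ), ← ofReal_mul]
  rw [integral_integral_swap (integrable_double hJ hW y v)]
  simp only [smul_smul, integral_smul_const, ofReal_mul, mul_assoc, kernel_integral hJ]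
  simp only [← smul_smul, integral_smul]
  rw [smul_smul, inv_mul_cancel₀ hc, one_smul]

theorem gaussProj_idem (v : H) : gaussProj hW (gaussProj hW v) = gaussProj hW v := by
  simpa [hW.zero, gauss_zero] using gaussProj_conj hJ hW 0 v

/-- **The translates of the projection separate points.** -/
theorem eq_zero_of_gaussProj {v : H} (h : ∀ y, gaussProj hW (W y v) = 0) : v = 0 := by
  set f : V → ℂ := fun x => (gauss x : ℂ) * ⟪v, W x v⟫_ℂ with hf
  have hfi : Integrable f := (hW.integrable_gauss_smul v).const_inner v |>.congr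
    (.of_forall fun x => inner_smul_right _ _ _)
  have hfc : Continuous f := (continuous_ofReal.comp continuous_gauss).mul
    (continuous_const.inner (hW.continuous_apply v))
  have hF : ∀ b, ∫ x, fourierExp b x * f x = 0 := fun b => by
    obtain ⟨y, rfl⟩ : ∃ y, J y = b := ⟨-J b, by rw [map_neg, hJ, neg_neg]⟩
    have h2 := congrArg (fun w => ⟪W (-y) v, w⟫_ℂ) (h (-y))
    simp only [gaussProj_apply hW, inner_zero_right, inner_smul_right, mul_eq_zero, inv_eq_zero,
      ofReal_eq_zero, gaussMass_pos.ne', false_or] at h2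
    rw [← integral_inner (hW.integrable_gauss_smul _)] at h2
    rw [← h2]
    refine integral_congr_ae (.of_forall fun x => ?_)
    simp only [inner_smul_right]
    rw [inner_map_left hJ hW, neg_neg, conj_apply hJ hW, inner_smul_right, fourierExp, hf,
      real_inner_comm, omega]
    ring_nf
  have hzero := (hfc.ae_eq_iff_eq volume continuous_const).1 (ae_eq_zero_of_fourier hfi hF)
  have e : f 0 = 0 := congrFun hzero 0
  simp only [hf, gauss_zero, hW.zero, ofReal_one, one_mul] at e
  exact inner_self_eq_zero.1 e

end FA.StoneVonNeumann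

end
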