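import Mathlib.MeasureTheory.Function.AEEqOfLIntegral
import Mathlib.MeasureTheory.Integral.Bochner.ContinuousLinearMap
import Mathlib.MeasureTheory.Measure.CharacteristicFunction.Basic
import Mathlib.MeasureTheory.Measure.WithDensity

/-!
# An integrable function is determined by its Fourier integrals

The positive and the negative part of a real function with vanishing Fourier integrals are
densities of measures with equal characteristic functions.
-/

set_option autoImplicit false
set_option linter.unusedSectionVars false
set_option linter.style.haveILetI false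

noncomputable section

open MeasureTheory Complex
open scoped RealInnerProductSpace ENNReal ComplexConjugate

namespace FA.StoneVonNeumann

variable {E : Type*} [NormedAddCommGroup E] [InnerProductSpace ℝ E] [FiniteDimensional ℝ E]
  [MeasurableSpace E] [BorelSpace E] {μ : Measure E}

/-- The Fourier character `x ↦ exp (i ⟪x, b⟫)`. -/
def fourierExp (b x : E) : ℂ := cexp (⟪x, b⟫ * I)

theorem continuous_fourierExp (b : E) : Continuous (fourierExp b) := by
  unfold fourierExp
  fun_prop

theorem norm_fourierExp (b x : E) : ‖fourierExp b x‖ = 1 := norm_exp_ofReal_mul_I _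

theorem integrable_fourierExp_mul {u : E → ℂ} (hu : Integrable u μ) (b : E) :
    Integrable (fun x => fourierExp b x * u x) μ :=
  hu.bdd_mul (continuous_fourierExp b).aestronglyMeasurable
    (.of_forall fun x => (norm_fourierExp b x).le)

theorem ae_eq_zero_of_real {r : E → ℝ} (hr : Integrable r μ)
    (h : ∀ b, ∫ x, fourierExp b x * (r x : ℂ) ∂μ = 0) : r =ᵐ[μ] 0 := by
  have hp : Integrable (fun x => max (r x) 0) μ := hr.pos_part
  have hn : Integrable (fun x => max (-r x) 0) μ := hr.neg_part
  haveI := isFiniteMeasure_withDensity_ofReal hp.2
  haveI := isFiniteMeasure_withDensity_ofReal hn.2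
  have key : μ.withDensity (fun x => ENNReal.ofReal (max (r x) 0)) =
      μ.withDensity fun x => ENNReal.ofReal (max (-r x) 0) := by
    refine Measure.ext_of_charFun (funext fun b => ?_)
    have he : ∀ {g : E → ℝ}, Integrable g μ → (∀ x, 0 ≤ g x) →
        charFun (μ.withDensity fun x => ENNReal.ofReal (g x)) b =
          ∫ x, fourierExp b x * (g x : ℂ) ∂μ := fun {g} hg hg0 => by
      rw [charFun_apply, integral_withDensity_eq_integral_toReal_smul₀
        hg.aemeasurable.ennreal_ofReal (.of_forall fun _ => ENNReal.ofReal_lt_top)]
      exact integral_congr_ae (.of_forall fun x => by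
        simp [fourierExp, ENNReal.toReal_ofReal (hg0 x), mul_comm])
    have hp' : Integrable (fun x => fourierExp b x * ((max (r x) 0 : ℝ) : ℂ)) μ :=
      integrable_fourierExp_mul hp.ofReal b
    have hn' : Integrable (fun x => fourierExp b x * ((max (-r x) 0 : ℝ) : ℂ)) μ :=
      integrable_fourierExp_mul hn.ofReal b
    rw [he hp fun x => le_max_right _ _, he hn fun x => le_max_right _ _, ← sub_eq_zero,
      ← integral_sub hp' hn', ← h b]
    refine integral_congr_ae (.of_forall fun x => ?_)
    simp only [← mul_sub, ← ofReal_sub, max_zero_sub_max_neg_zero_eq_self]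
  have h2 := (withDensity_eq_iff hp.aemeasurable.ennreal_ofReal hn.aemeasurable.ennreal_ofReal
    (ne_of_lt (by simpa using hp.lintegral_lt_top))).1 key
  filter_upwards [h2] with x hx
  rw [ENNReal.ofReal_eq_ofReal_iff (le_max_right _ _) (le_max_right _ _)] at hx
  have := max_zero_sub_max_neg_zero_eq_self (r x)
  simp only [Pi.zero_apply]
  linarith

/-- **Injectivity of the Fourier transform on integrable functions.** -/
theorem ae_eq_zero_of_fourier {u : E → ℂ} (hu : Integrable u μ)
    (h : ∀ b, ∫ x, fourierExp b x * u x ∂μ = 0) : u =ᵐ[μ] 0 := by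
  have hc : ∀ b, ∫ x, fourierExp b x * conj (u x) ∂μ = 0 := fun b => by
    have := congrArg conj (h (-b))
    rw [← integral_conj, map_zero] at this
    rw [← this]
    exact integral_congr_ae (.of_forall fun x => by simp [fourierExp, ← exp_conj, inner_neg_right])
  have hci : Integrable (fun x => conj (u x)) μ :=
    (conjCLE : ℂ →L[ℝ] ℂ).integrable_comp hu
  have hre := ae_eq_zero_of_real (r := fun x => (u x).re) hu.re fun b => by
    simp only [re_eq_add_conj, mul_div_assoc', mul_add]
    rw [integral_div, integral_add (integrable_fourierExp_mul hu b)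
      (integrable_fourierExp_mul hci b), h b, hc b, add_zero, zero_div]
  have him := ae_eq_zero_of_real (r := fun x => (u x).im) hu.im fun b => by
    simp only [im_eq_sub_conj, mul_div_assoc', mul_sub]
    rw [integral_div, integral_sub (integrable_fourierExp_mul hu b)
      (integrable_fourierExp_mul hci b), h b, hc b, sub_zero, zero_div]
  filter_upwards [hre, him] with x h1 h2
  exact Complex.ext h1 h2

end FA.StoneVonNeumann

end
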