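import Fermat.Agent.StoneVonNeumann.Unique
import Mathlib.Analysis.InnerProductSpace.ProdL2
import Mathlib.Analysis.Normed.Lp.MeasurableSpace
import Mathlib.MeasureTheory.Function.LpSpace.ContinuousCompMeasurePreserving
import Mathlib.MeasureTheory.Group.Integral
import Mathlib.MeasureTheory.Measure.Haar.InnerProductSpace
import Mathlib.Topology.CompactOpen

/-!
# The Schrödinger system

Translations and modulations of `L² (ℝ ^ n)` form an irreducible Weyl system.
-/

set_option autoImplicit false
set_option linter.unusedSectionVars false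
set_option linter.style.haveILetI false

noncomputable section

open MeasureTheory Complex Filter Topology
open scoped InnerProductSpace ComplexConjugate ENNReal

namespace FA.StoneVonNeumann

variable (n : ℕ)

/-- Phase space. -/
abbrev Phase : Type := WithLp 2 (EuclideanSpace ℝ (Fin n) × EuclideanSpace ℝ (Fin n))

/-- The Hilbert space of the Schrödinger system. -/
abbrev SchSpace : Type := Lp ℂ 2 (volume : Measure (EuclideanSpace ℝ (Fin n)))

/-- The complex structure `(a, b) ↦ (b, -a)` of phase space. -/
def phaseJ : Phase n →ₗᵢ[ℝ] Phase n where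
  toFun x := WithLp.toLp 2 (x.snd, -x.fst)
  map_add' x y := by refine WithLp.ofLp_injective 2 (Prod.ext ?_ ?_) <;> simp [add_comm]
  map_smul' c x := by refine WithLp.ofLp_injective 2 (Prod.ext ?_ ?_) <;> simp
  norm_map' x := by
    simp [WithLp.prod_norm_eq_of_L2, add_comm]

theorem phaseJ_sq (x : Phase n) : phaseJ n (phaseJ n x) = -x := by
  refine WithLp.ofLp_injective 2 (Prod.ext ?_ ?_) <;> simp [phaseJ]

theorem omega_phase (x y : Phase n) :
    omega (phaseJ n) x y = ⟪x.snd, y.fst⟫_ℝ - ⟪x.fst, y.snd⟫_ℝ := by
  simp [omega, phaseJ, WithLp.prod_inner_apply, sub_eq_add_neg]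

variable {n}

/-- The phase factor. -/
def phaseFun (p : Phase n) (t : EuclideanSpace ℝ (Fin n)) : ℂ :=
  cexp (((⟪p.snd, t⟫_ℝ - ⟪p.fst, p.snd⟫_ℝ / 2 : ℝ) : ℂ) * I)

theorem continuous_phaseFun :
    Continuous fun z : Phase n × EuclideanSpace ℝ (Fin n) => phaseFun z.1 z.2 := by
  unfold phaseFun
  fun_prop

theorem norm_phaseFun (p : Phase n) (t : EuclideanSpace ℝ (Fin n)) : ‖phaseFun p t‖ = 1 :=
  norm_exp_ofReal_mul_I _

theorem memLp_phaseFun_mul (p : Phase n) (f : SchSpace n) :
    MemLp (fun t => phaseFun p t * f t) 2 (volume : Measure (EuclideanSpace ℝ (Fin n))) :=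
  (Lp.memLp f).congr_norm ((continuous_phaseFun.comp
    (Continuous.prodMk_right p)).aestronglyMeasurable.mul (Lp.aestronglyMeasurable f))
    (.of_forall fun t => by simp [norm_phaseFun])

/-- Multiplication by the phase factor. -/
def modulate (p : Phase n) : SchSpace n →ₗᵢ[ℂ] SchSpace n where
  toFun f := (memLp_phaseFun_mul p f).toLp _
  map_add' f g := by
    rw [← MemLp.toLp_add]
    refine MemLp.toLp_congr _ _ ((Lp.coeFn_add f g).mono fun t ht => ?_)
    simp only [ht, Pi.add_apply, mul_add]
  map_smul' c f := by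
    rw [RingHom.id_apply, ← MemLp.toLp_const_smul]
    refine MemLp.toLp_congr _ _ ((Lp.coeFn_smul c f).mono fun t ht => ?_)
    simp only [ht, Pi.smul_apply, smul_eq_mul, mul_left_comm]
  norm_map' f := by
    simp only [LinearMap.coe_mk, AddHom.coe_mk, Lp.norm_def]
    exact congrArg ENNReal.toReal (eLpNorm_congr_norm_ae
      ((memLp_phaseFun_mul p f).coeFn_toLp.mono fun t ht => by simp [ht, norm_phaseFun]))

theorem coeFn_modulate (p : Phase n) (f : SchSpace n) :
    (modulate p f : EuclideanSpace ℝ (Fin n) → ℂ) =ᵐ[volume] fun t => phaseFun p t * f t :=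
  (memLp_phaseFun_mul p f).coeFn_toLp

/-- Translation. -/
def translate (a : EuclideanSpace ℝ (Fin n)) : SchSpace n →ₗᵢ[ℂ] SchSpace n :=
  Lp.compMeasurePreservingₗᵢ ℂ (fun t => t - a) (measurePreserving_sub_right volume a)

theorem coeFn_translate (a : EuclideanSpace ℝ (Fin n)) (f : SchSpace n) :
    (translate a f : EuclideanSpace ℝ (Fin n) → ℂ) =ᵐ[volume] fun t => f (t - a) :=
  Lp.coeFn_compMeasurePreserving f _

theorem continuous_translate (f : SchSpace n) :
    Continuous fun p : Phase n => translate p.fst f := by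
  exact Continuous.compMeasurePreservingLp (g := fun p : Phase n =>
    (⟨fun t => t - p.fst, by fun_prop⟩ : C(EuclideanSpace ℝ (Fin n), EuclideanSpace ℝ (Fin n))))
    continuous_const (ContinuousMap.continuous_of_continuous_uncurry _ (by
      show Continuous fun z : Phase n × EuclideanSpace ℝ (Fin n) => z.2 - z.1.fst
      fun_prop))
    (fun p => measurePreserving_sub_right volume p.fst) ENNReal.ofNat_ne_top

/-- **The Schrödinger system.** -/
def schroedinger (p : Phase n) : SchSpace n →L[ℂ] SchSpace n :=
  ((modulate p).comp (translate p.fst)).toContinuousLinearMap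

theorem coeFn_schroedinger (p : Phase n) (f : SchSpace n) :
    (schroedinger p f : EuclideanSpace ℝ (Fin n) → ℂ) =ᵐ[volume]
      fun t => phaseFun p t * f (t - p.fst) :=
  (coeFn_modulate p _).trans ((coeFn_translate p.fst f).mono fun t ht => by
    exact congrArg (phaseFun p t * ·) ht)

theorem continuous_schroedinger (f : SchSpace n) : Continuous fun p => schroedinger p f := by
  refine continuous_iff_continuousAt.2 fun q => ?_
  set u := translate q.fst f
  have h1 : Tendsto (fun p => modulate p u) (𝓝 q) (𝓝 (modulate q u)) := by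
    refine (continuous_iff_continuousAt.1 ?_ q).tendsto
    refine continuous_of_weak (fun p => (modulate p).norm_map u) fun h => ?_
    have e : ∀ p : Phase n, ⟪h, modulate p u⟫_ℂ = ∫ t, phaseFun p t * ⟪h t, u t⟫_ℂ := fun p => by
      rw [L2.inner_def]
      exact integral_congr_ae ((coeFn_modulate p u).mono fun t ht => by
        simp only [ht, ← smul_eq_mul, inner_smul_right])
    simp only [e]
    refine continuous_of_dominated (bound := fun t => ‖⟪h t, u t⟫_ℂ‖)
      (fun p => (continuous_phaseFun.comp (Continuous.prodMk_right p)).aestronglyMeasurable.mul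
        (L2.integrable_inner h u).aestronglyMeasurable)
      (fun p => .of_forall fun t => by simp [norm_phaseFun]) (L2.integrable_inner h u).norm
      (.of_forall fun t => ?_)
    exact (continuous_phaseFun.comp (Continuous.prodMk_left t)).mul continuous_const
  refine tendsto_iff_norm_sub_tendsto_zero.2 (squeeze_zero (fun _ => norm_nonneg _)
    (g := fun p => ‖translate p.fst f - u‖ + ‖modulate p u - modulate q u‖) (fun p => ?_) ?_)
  · show ‖modulate p (translate p.fst f) - modulate q u‖ ≤ _
    calc _ = ‖modulate p (translate p.fst f - u) + (modulate p u - modulate q u)‖ := by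
          rw [map_sub]; abel_nf
      _ ≤ _ := (norm_add_le _ _).trans_eq (by rw [LinearIsometry.norm_map])
  · simpa using ((tendsto_iff_norm_sub_tendsto_zero.1 ((continuous_translate f).tendsto q)).add
      (tendsto_iff_norm_sub_tendsto_zero.1 h1))
where
  continuous_of_weak {X : Type} [TopologicalSpace X] {c : ℝ} {g : X → SchSpace n}
      (hn : ∀ x, ‖g x‖ = c) (hw : ∀ h, Continuous fun x => ⟪h, g x⟫_ℂ) : Continuous g := by
    refine continuous_iff_continuousAt.2 fun y => tendsto_iff_norm_sub_tendsto_zero.2 ?_
    have e : ∀ x, ‖g x - g y‖ = √(2 * c ^ 2 - 2 * RCLike.re ⟪g y, g x⟫_ℂ) := fun x => by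
      rw [← Real.sqrt_sq (norm_nonneg (g x - g y)), norm_sub_sq (𝕜 := ℂ), hn, hn,
        inner_re_symm]
      congr 1
      ring
    simp only [e]
    have h0 := ((Real.continuous_sqrt.comp ((continuous_const (y := 2 * c ^ 2)).sub
      ((continuous_const (y := (2 : ℝ))).mul (RCLike.continuous_re.comp (hw (g y)))))).tendsto y)
    have hy : √(2 * c ^ 2 - 2 * RCLike.re ⟪g y, g y⟫_ℂ) = 0 := by
      rw [inner_self_eq_norm_sq, hn, sub_self, Real.sqrt_zero]
    rw [← hy]
    exact h0

theorem isWeylSystem_schroedinger : IsWeylSystem (phaseJ n) (schroedinger (n := n)) where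
  mul x y f := by
    refine Lp.ext ?_
    filter_upwards [coeFn_schroedinger x (schroedinger y f), coeFn_schroedinger (x + y) f,
      (measurePreserving_sub_right volume x.fst).quasiMeasurePreserving.ae (coeFn_schroedinger y f),
      Lp.coeFn_smul (cexp (I * (omega (phaseJ n) x y : ℂ) / 2)) (schroedinger (x + y) f)]
      with t h1 h2 h3 h4
    rw [h1, h3, h4, Pi.smul_apply, h2, smul_eq_mul, ← mul_assoc, ← mul_assoc, omega_phase,
      phaseFun, phaseFun, phaseFun, ← Complex.exp_add, ← Complex.exp_add]
    simp only [WithLp.add_fst, WithLp.add_snd, inner_add_left, inner_add_right, inner_sub_right,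
      sub_sub, add_comm x.fst y.fst, real_inner_comm y.fst x.snd, real_inner_comm y.snd x.fst]
    congr 2
    push_cast
    ring
  zero f := by
    refine Lp.ext ?_
    filter_upwards [coeFn_schroedinger 0 f] with t ht
    simp [ht, phaseFun]
  norm_map x f := ((modulate x).comp (translate x.fst)).norm_map f
  continuous_apply := continuous_schroedinger

/-- **The Schrödinger system is irreducible.** -/
theorem isIrreducibleSystem_schroedinger : IsIrreducibleSystem (schroedinger (n := n)) := by
  refine ⟨?_, fun S hS hinv => ?_⟩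
  · refine ⟨indicatorConstLp 2 (measurableSet_ball (x := (0 : EuclideanSpace ℝ (Fin n))) (ε := 1))
      measure_ball_lt_top.ne 1, fun h => ?_⟩
    have h1 := congrArg norm h
    rw [norm_indicatorConstLp two_ne_zero ENNReal.ofNat_ne_top, norm_zero, norm_one, one_mul] at h1
    exact (ENNReal.toReal_pos (Metric.measure_ball_pos volume 0 one_pos).ne'
      measure_ball_lt_top.ne).ne' ((Real.rpow_eq_zero measureReal_nonneg (by simp)).1 h1)
  · by_contra! hc
    obtain ⟨f, hfS, hf⟩ := (Submodule.ne_bot_iff S).1 hc.1
    haveI : CompleteSpace S := hS.completeSpace_coe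
    obtain ⟨h, hhS, hh⟩ := (Submodule.ne_bot_iff Sᗮ).1 fun e =>
      hc.2 (Submodule.orthogonal_eq_bot_iff.1 e)
    have hzero : ∀ a : EuclideanSpace ℝ (Fin n), ∀ᵐ t, conj (h t) * f (t - a) = 0 := fun a => by
      have hi : Integrable (fun t => conj (h t) * f (t - a)) :=
        (L2.integrable_inner h (translate a f)).congr ((coeFn_translate a f).mono fun t ht => by
          simp [ht, mul_comm])
      refine ae_eq_zero_of_fourier hi fun b => ?_
      set p : Phase n := WithLp.toLp 2 (a, b)
      have h0 := (Submodule.mem_orthogonal' S h).1 hhS _ (hinv p f hfS)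
      rw [L2.inner_def] at h0
      have h1 : ∫ t, cexp ((-(⟪a, b⟫_ℝ / 2) : ℝ) * I) *
          (fourierExp b t * (conj (h t) * f (t - a))) = 0 := by
        rw [← h0]
        refine integral_congr_ae ((coeFn_schroedinger p f).mono fun t ht => ?_)
        simp only [ht, RCLike.inner_apply', phaseFun, fourierExp, p, WithLp.toLp_fst,
          WithLp.toLp_snd, real_inner_comm t b]
        push_cast
        rw [show ((⟪t, b⟫_ℝ : ℂ) - (⟪a, b⟫_ℝ : ℂ) / 2) * I =
          -((⟪a, b⟫_ℝ : ℂ) / 2) * I + (⟪t, b⟫_ℝ : ℂ) * I by ring, Complex.exp_add]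
        ring
      rw [integral_const_mul, mul_eq_zero] at h1
      exact h1.resolve_left (Complex.exp_ne_zero _)
    have hmf := (Lp.aestronglyMeasurable f).aemeasurable.enorm
    have hmh := (Lp.aestronglyMeasurable h).aemeasurable.enorm
    have hprod : (∫⁻ t, ‖h t‖ₑ) * (∫⁻ t, ‖f t‖ₑ) = 0 := by
      calc (∫⁻ t, ‖h t‖ₑ) * (∫⁻ t, ‖f t‖ₑ) = ∫⁻ t, ∫⁻ a, ‖h t‖ₑ * ‖f (t - a)‖ₑ := by
            rw [← lintegral_mul_const'' _ hmh]
            refine lintegral_congr fun t => ?_
            rw [lintegral_const_mul'' (f := fun a => ‖f (t - a)‖ₑ) _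
              (hmf.comp_quasiMeasurePreserving
                (Measure.measurePreserving_sub_left volume t).quasiMeasurePreserving),
              lintegral_sub_left_eq_self (fun a => ‖f a‖ₑ) t]
        _ = ∫⁻ a, ∫⁻ t, ‖h t‖ₑ * ‖f (t - a)‖ₑ :=
            lintegral_lintegral_swap ((hmh.comp_quasiMeasurePreserving
              Measure.quasiMeasurePreserving_fst).mul
              (hmf.comp_quasiMeasurePreserving (quasiMeasurePreserving_sub volume volume)))
        _ = 0 := by
            refine (lintegral_congr fun a => ?_).trans lintegral_zero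
            refine (lintegral_congr_ae ((hzero a).mono fun t ht => ?_)).trans lintegral_zero
            simpa [mul_eq_zero] using ht
    rcases mul_eq_zero.1 hprod with h1 | h1
    · refine hh ((Lp.eq_zero_iff_ae_eq_zero).2 ?_)
      filter_upwards [(lintegral_eq_zero_iff' hmh).1 h1] with t ht
      simpa using ht
    · refine hf ((Lp.eq_zero_iff_ae_eq_zero).2 ?_)
      filter_upwards [(lintegral_eq_zero_iff' hmf).1 h1] with t ht
      simpa using ht

end FA.StoneVonNeumann

end
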