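import Fermat.Agent.StoneVonNeumann.Basic
import Mathlib.Analysis.InnerProductSpace.l2Space
import Mathlib.Analysis.Normed.Operator.Extend
import Mathlib.LinearAlgebra.Finsupp.LinearCombination

/-!
# The theorem of Stone and von Neumann

The Gram matrix of the translates of a unit vector fixed by von Neumann's projection does not
depend on the system.  So irreducible systems are equivalent, by an intertwiner unique up to a
scalar, and every system is a sum of copies of an irreducible one.
-/

set_option autoImplicit false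
set_option linter.unusedSectionVars false
set_option linter.style.haveILetI false

noncomputable section

open MeasureTheory Complex
open scoped InnerProductSpace ComplexConjugate

namespace FA.StoneVonNeumann

variable {V : Type*} [NormedAddCommGroup V] [InnerProductSpace ℝ V] [FiniteDimensional ℝ V]
  [MeasurableSpace V] [BorelSpace V]
  {H : Type*} [NormedAddCommGroup H] [InnerProductSpace ℂ H] [CompleteSpace H]
  {H' : Type*} [NormedAddCommGroup H'] [InnerProductSpace ℂ H'] [CompleteSpace H']
  {J : V →ₗᵢ[ℝ] V} {W : V → H →L[ℂ] H} {W' : V → H' →L[ℂ] H'}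

/-- A subspace preserved by the system. -/
def IsInvariant (W : V → H →L[ℂ] H) (S : Submodule ℂ H) : Prop := ∀ x, ∀ v ∈ S, W x v ∈ S

/-- Irreducibility: a nonzero space without closed invariant subspaces. -/
def IsIrreducibleSystem (W : V → H →L[ℂ] H) : Prop :=
  (∃ v : H, v ≠ 0) ∧
    ∀ S : Submodule ℂ H, IsClosed (S : Set H) → IsInvariant W S → S = ⊥ ∨ S = ⊤

/-- The kernel of the translates of a fixed unit vector. -/
def weylKernel (J : V →ₗᵢ[ℝ] V) (x y : V) : ℂ :=
  cexp (I * (omega J (-x) y : ℂ) / 2) * (gauss (-x + y) : ℂ)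

/-- The Gram sum of the kernel. -/
def gramSum (J : V →ₗᵢ[ℝ] V) (f g : V →₀ ℂ) : ℂ :=
  f.sum fun x a => g.sum fun y b => conj a * (b * weylKernel J x y)

/-- The combinations of the translates of a vector. -/
def orbitMap (W : V → H →L[ℂ] H) (v : H) : (V →₀ ℂ) →ₗ[ℂ] H :=
  Finsupp.linearCombination ℂ fun x => W x v

theorem orbitMap_single (W : V → H →L[ℂ] H) (v : H) (x : V) (c : ℂ) :
    orbitMap W v (Finsupp.single x c) = c • W x v :=
  Finsupp.linearCombination_single ℂ c x

theorem range_orbitMap (W : V → H →L[ℂ] H) (v : H) :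
    LinearMap.range (orbitMap W v) = Submodule.span ℂ (Set.range fun x => W x v) :=
  Finsupp.range_linearCombination _

/-- The closed subspace generated by a vector. -/
def cyclic (W : V → H →L[ℂ] H) (v : H) : Submodule ℂ H :=
  (LinearMap.range (orbitMap W v)).topologicalClosure

theorem isClosed_cyclic (W : V → H →L[ℂ] H) (v : H) : IsClosed (cyclic W v : Set H) :=
  Submodule.isClosed_topologicalClosure _

theorem apply_mem_cyclic (W : V → H →L[ℂ] H) (v : H) (x : V) : W x v ∈ cyclic W v :=
  Submodule.le_topologicalClosure _ ⟨Finsupp.single x 1, by simp [orbitMap_single]⟩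

variable (hW : IsWeylSystem J W) (hW' : IsWeylSystem J W')

include hW

theorem mem_cyclic (v : H) : v ∈ cyclic W v := by simpa [hW.zero] using apply_mem_cyclic W v 0

theorem isInvariant_cyclic (v : H) : IsInvariant W (cyclic W v) := fun y => by
  have h : Set.MapsTo (W y) (LinearMap.range (orbitMap W v) : Set H)
      (LinearMap.range (orbitMap W v)) := by
    rintro _ ⟨f, rfl⟩
    induction f using Finsupp.induction_linear with
    | zero => simp
    | add f g hf hg =>
      rw [map_add, map_add]
      exact Submodule.add_mem _ hf hg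
    | single x c =>
      refine ⟨Finsupp.single (y + x) (c * cexp (I * (omega J y x : ℂ) / 2)), ?_⟩
      rw [orbitMap_single, orbitMap_single, map_smul, hW.mul, smul_smul]
  exact fun w hw => h.closure (W y).continuous hw

variable (hJ : ∀ x, J (J x) = -x)

include hJ

theorem exists_unit_fixed (h : ∃ v : H, v ≠ 0) : ∃ v : H, ‖v‖ = 1 ∧ gaussProj hW v = v := by
  obtain ⟨v, hv⟩ := h
  obtain ⟨y, hy⟩ : ∃ y, gaussProj hW (W y v) ≠ 0 := by
    by_contra! hc
    exact hv (eq_zero_of_gaussProj hJ hW hc)
  set w := gaussProj hW (W y v) with hw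
  refine ⟨((‖w‖⁻¹ : ℝ) : ℂ) • w, ?_, ?_⟩
  · rw [norm_smul, norm_real, norm_inv, norm_norm, inv_mul_cancel₀ (norm_ne_zero_iff.2 hy)]
  · rw [map_smul, hw, gaussProj_idem hJ hW]

theorem inner_translates {v w : H} (hv : gaussProj hW v = v) (hw : gaussProj hW w = w) (x y : V) :
    ⟪W x v, W y w⟫_ℂ = weylKernel J x y * ⟪v, w⟫_ℂ := by
  rw [inner_map_left hJ hW, hW.mul, inner_smul_right, weylKernel, mul_assoc]
  congr 1
  conv_lhs => rw [← hv, inner_gaussProj hJ hW, ← hw, gaussProj_conj hJ hW, inner_smul_right, hw]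

theorem inner_orbitMap {v w : H} (hv : gaussProj hW v = v) (hw : gaussProj hW w = w)
    (f g : V →₀ ℂ) :
    ⟪orbitMap W v f, orbitMap W w g⟫_ℂ =
      gramSum J f g * ⟪v, w⟫_ℂ := by
  simp only [gramSum, orbitMap, Finsupp.linearCombination_apply, Finsupp.sum, inner_sum, sum_inner,
    inner_smul_left, inner_smul_right, inner_translates hW hJ hv hw, Finset.sum_mul, mul_assoc]
  rw [Finset.sum_comm]
  simp only [Finset.mul_sum, mul_left_comm (g _)]

theorem dense_orbitMap (hirr : IsIrreducibleSystem W) {v : H} (hv : v ≠ 0) :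
    DenseRange (orbitMap W v) := by
  rcases hirr.2 _ (isClosed_cyclic W v) (isInvariant_cyclic hW v) with h | h
  · exact absurd ((Submodule.eq_bot_iff _).1 h v (mem_cyclic hW v)) hv
  · rw [DenseRange, dense_iff_closure_eq]
    exact congrArg (fun S : Submodule ℂ H => (S : Set H)) h

/-- Irreducible systems have one line of fixed vectors. -/
theorem fixed_eq_smul (hirr : IsIrreducibleSystem W) {v w : H} (hv1 : ‖v‖ = 1)
    (hv : gaussProj hW v = v) (hw : gaussProj hW w = w) : w = ⟪v, w⟫_ℂ • v := by
  rw [← sub_eq_zero]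
  set u := w - ⟪v, w⟫_ℂ • v with hu
  have hu' : gaussProj hW u = u := by rw [hu, map_sub, map_smul, hv, hw]
  have h0 : ⟪v, u⟫_ℂ = 0 := by
    rw [hu, inner_sub_right, inner_smul_right, inner_self_eq_norm_sq_to_K, hv1]
    simp
  have hd := dense_orbitMap hW hJ hirr (fun h => by simp [h] at hv1 : v ≠ 0)
  refine inner_self_eq_zero (𝕜 := ℂ).1 (hd.induction_on (p := fun z => ⟪z, u⟫_ℂ = 0) u
    (isClosed_eq (by fun_prop) continuous_const) fun f => ?_)
  have h1 : orbitMap W u (Finsupp.single 0 1) = u := by simp [orbitMap_single, hW.zero]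
  rw [← h1, inner_orbitMap hW hJ hv hu', h0, mul_zero]

/-- A bounded operator commuting with an irreducible system is a scalar. -/
theorem exists_scalar (hirr : IsIrreducibleSystem W) (A : H →L[ℂ] H)
    (hA : ∀ x v, A (W x v) = W x (A v)) : ∃ a : ℂ, ∀ v, A v = a • v := by
  obtain ⟨v, hv1, hv⟩ := exists_unit_fixed hW hJ hirr.1
  have hfix : gaussProj hW (A v) = A v := by
    conv_rhs => rw [← hv]
    rw [gaussProj_apply, gaussProj_apply, map_smul,
      ← A.integral_comp_comm (hW.integrable_gauss_smul v)]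
    simp only [map_smul, hA]
  refine ⟨⟪v, A v⟫_ℂ, fun u => ?_⟩
  refine (dense_orbitMap hW hJ hirr (fun h => by simp [h] at hv1 : v ≠ 0)).induction_on
    (p := fun u => A u = ⟪v, A v⟫_ℂ • u) u (isClosed_eq (by fun_prop) (by fun_prop)) fun f => ?_
  induction f using Finsupp.induction_linear with
  | zero => simp
  | add f g hf hg => simp only [map_add, hf, hg, smul_add]
  | single x c =>
    rw [orbitMap_single, map_smul, hA]
    conv_lhs => rw [fixed_eq_smul hW hJ hirr hv1 hv hfix]
    rw [map_smul, smul_comm]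

include hW'

/-- An irreducible system embeds into any other along a fixed unit vector. -/
theorem exists_embedding (hirr : IsIrreducibleSystem W) {v : H} (hv1 : ‖v‖ = 1)
    (hv : gaussProj hW v = v) {w : H'} (hw1 : ‖w‖ = 1) (hw : gaussProj hW' w = w) :
    ∃ T : H →ₗᵢ[ℂ] H', T v = w ∧ ∀ x u, T (W x u) = W' x (T u) := by
  have hd := dense_orbitMap hW hJ hirr (fun h => by simp [h] at hv1 : v ≠ 0)
  have hn : ∀ f, ‖orbitMap W' w f‖ = ‖orbitMap W v f‖ := fun f => by
    have h1 := inner_orbitMap hW hJ hv hv f f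
    have h2 := inner_orbitMap hW' hJ hw hw f f
    rw [inner_self_eq_norm_sq_to_K, inner_self_eq_norm_sq_to_K (𝕜 := ℂ) (x := v), hv1] at h1
    rw [inner_self_eq_norm_sq_to_K, inner_self_eq_norm_sq_to_K (𝕜 := ℂ) (x := w), hw1, ← h1] at h2
    exact (sq_eq_sq₀ (norm_nonneg _) (norm_nonneg _)).1 (by exact_mod_cast h2)
  have hb : ∃ C, ∀ f, ‖orbitMap W' w f‖ ≤ C * ‖orbitMap W v f‖ :=
    ⟨1, fun f => by rw [one_mul, hn]⟩
  set T := (orbitMap W' w).extendOfNorm (orbitMap W v)
  have hT : ∀ f, T (orbitMap W v f) = orbitMap W' w f :=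
    fun f => LinearMap.extendOfNorm_eq hd hb f
  have hiso : ∀ u, ‖T u‖ = ‖u‖ := fun u => hd.induction_on (p := fun u => ‖T u‖ = ‖u‖) u
    (isClosed_eq (by fun_prop) (by fun_prop)) fun f => by rw [hT, hn]
  refine ⟨⟨(T : H →ₗ[ℂ] H'), hiso⟩, ?_, fun x u => ?_⟩
  · show T v = w
    simpa [orbitMap_single, hW.zero, hW'.zero] using hT (Finsupp.single 0 1)
  · show T (W x u) = W' x (T u)
    refine hd.induction_on (p := fun u => T (W x u) = W' x (T u)) u
      (isClosed_eq (by fun_prop) (by fun_prop)) fun f => ?_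
    induction f using Finsupp.induction_linear with
    | zero => simp
    | add f g hf hg => simp only [map_add, hf, hg]
    | single y c =>
      have h3 := hT (Finsupp.single (x + y) (c * cexp (I * (omega J x y : ℂ) / 2)))
      rw [orbitMap_single, orbitMap_single] at h3
      rw [hT, orbitMap_single, orbitMap_single, map_smul (W x), map_smul (W' x), hW.mul, hW'.mul,
        smul_smul, smul_smul, h3]

/-- **The theorem of Stone and von Neumann.** -/
theorem exists_intertwiner (hirr : IsIrreducibleSystem W) (hirr' : IsIrreducibleSystem W') :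
    ∃ T : H ≃ₗᵢ[ℂ] H', ∀ x u, T (W x u) = W' x (T u) := by
  obtain ⟨v, hv1, hv⟩ := exists_unit_fixed hW hJ hirr.1
  obtain ⟨w, hw1, hw⟩ := exists_unit_fixed hW' hJ hirr'.1
  obtain ⟨T, hTv, hT⟩ := exists_embedding hW hW' hJ hirr hv1 hv hw1 hw
  have hsurj : Function.Surjective T := fun z => by
    rcases hirr'.2 (LinearMap.range T.toLinearMap) T.isometry.isClosedEmbedding.isClosed_range
      (by rintro x _ ⟨u, rfl⟩; exact ⟨W x u, hT x u⟩) with h | h
    · have h0 : w = 0 := (Submodule.eq_bot_iff _).1 h w ⟨v, hTv⟩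
      simp [h0] at hw1
    · exact LinearMap.range_eq_top.1 h z
  exact ⟨LinearIsometryEquiv.ofSurjective T hsurj, hT⟩

omit hW'

/-- **The intertwiner is unique up to a scalar of absolute value one.** -/
theorem intertwiner_unique (hirr : IsIrreducibleSystem W) (T T' : H ≃ₗᵢ[ℂ] H')
    (hT : ∀ x u, T (W x u) = W' x (T u)) (hT' : ∀ x u, T' (W x u) = W' x (T' u)) :
    ∃ a : ℂ, ‖a‖ = 1 ∧ ∀ u, T u = a • T' u := by
  obtain ⟨a, ha⟩ := exists_scalar hW hJ hirr
    ((T'.symm.toLinearIsometry.toContinuousLinearMap).comp T.toLinearIsometry.toContinuousLinearMap)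
    fun x u => T'.injective (by simp [hT, hT'])
  refine ⟨a, ?_, fun u => by
    have h1 := congrArg T' (ha u)
    simpa using h1⟩
  obtain ⟨v, hv⟩ := hirr.1
  have h1 := congrArg norm (ha v)
  simp [norm_smul] at h1
  exact (mul_eq_right₀ (norm_ne_zero_iff.2 hv)).1 h1.symm

/-- **Every system is a Hilbert sum of copies of an irreducible one.** -/
theorem exists_decomposition (hW' : IsWeylSystem J W') (hirr : IsIrreducibleSystem W) :
    ∃ (ι : Set H') (T : ι → H →ₗᵢ[ℂ] H'), IsHilbertSum ℂ (fun _ : ι => H) T ∧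
      ∀ i x u, T i (W x u) = W' x (T i u) := by
  obtain ⟨v, hv1, hv⟩ := exists_unit_fixed hW hJ hirr.1
  set S : Submodule ℂ H' := LinearMap.eqLocus (gaussProj hW' : H' →ₗ[ℂ] H') LinearMap.id
  have hS : IsClosed (S : Set H') := isClosed_eq (gaussProj hW').continuous continuous_id
  haveI : CompleteSpace S := hS.completeSpace_coe
  obtain ⟨s, b, hb⟩ := exists_hilbertBasis ℂ S
  set ι : Set H' := Subtype.val '' s with hι
  have hfix : ∀ i : ι, gaussProj hW' (i : H') = i := by
    rintro ⟨_, u, -, rfl⟩
    exact u.2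
  have hon : Orthonormal ℂ (fun i : ι => (i : H')) := by
    have h0 : Orthonormal ℂ (fun i : s => ((i : S) : H')) := by
      have := b.orthonormal
      rw [hb] at this
      exact this.comp_linearIsometry S.subtypeₗᵢ
    set f : ι → s := fun i => ⟨i.2.choose, i.2.choose_spec.1⟩
    have hf : ∀ i : ι, (((f i : s) : S) : H') = i := fun i => i.2.choose_spec.2
    have h1 := h0.comp f fun i j hij => Subtype.ext (by rw [← hf i, ← hf j, hij])
    convert! h1 using 1
    exact funext fun i => (hf i).symm
  choose T hTv hT using fun i : ι =>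
    exists_embedding hW hW' hJ hirr hv1 hv (hon.1 i) (hfix i)
  have hTo : ∀ i f, T i (orbitMap W v f) = orbitMap W' (i : H') f := fun i f => by
    induction f using Finsupp.induction_linear with
    | zero => simp
    | add f g hf hg => simp only [map_add, hf, hg]
    | single x c => rw [orbitMap_single, orbitMap_single, map_smul, hT, hTv]
  have hd := dense_orbitMap hW hJ hirr (fun h => by simp [h] at hv1 : v ≠ 0)
  refine ⟨ι, T, IsHilbertSum.mk (fun i j hij u u' => ?_) ?_, hT⟩
  · show ⟪T i u, T j u'⟫_ℂ = 0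
    refine hd.induction_on₂ (p := fun u u' => ⟪T i u, T j u'⟫_ℂ = 0)
      (isClosed_eq (by fun_prop) continuous_const) (fun f g => ?_) u u'
    rw [hTo, hTo, inner_orbitMap hW' hJ (hfix i) (hfix j), hon.2 hij, mul_zero]
  · rw [top_le_iff, Submodule.topologicalClosure_eq_top_iff, Submodule.eq_bot_iff]
    refine fun z hz => eq_zero_of_gaussProj hJ hW' fun y => ?_
    have hz' : ∀ i : ι, ⟪(i : H'), gaussProj hW' (W' y z)⟫_ℂ = 0 := fun i => by
      rw [← inner_gaussProj hJ hW', hfix, inner_map_right hJ hW']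
      refine (Submodule.mem_orthogonal _ _).1 hz _ (Submodule.mem_iSup_of_mem i ⟨W (-y) v, ?_⟩)
      show T i (W (-y) v) = _
      rw [hT, hTv]
    have h1 : b.repr ⟨gaussProj hW' (W' y z), gaussProj_idem hJ hW' _⟩ = 0 := by
      ext i
      rw [b.repr_apply_apply, hb]
      exact hz' ⟨_, i.1, i.2, rfl⟩
    exact congrArg Subtype.val (b.repr.map_eq_zero_iff.1 h1)

end FA.StoneVonNeumann

end
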