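import Fermat.Agent.StoneVonNeumann.Schroedinger
import Mathlib.LinearAlgebra.Determinant
import Mathlib.LinearAlgebra.Matrix.SpecialLinearGroup

/-!
# The projective Weil representation

A linear automorphism preserving the symplectic form carries an irreducible system to another, so
it is implemented by a unitary operator, unique up to a scalar.  A finite-dimensional space carries
no system.
-/

set_option autoImplicit false
set_option linter.unusedSectionVars false
set_option linter.style.haveILetI false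

noncomputable section

open MeasureTheory Complex
open scoped InnerProductSpace MatrixGroups

namespace FA.StoneVonNeumann

variable {V : Type*} [NormedAddCommGroup V] [InnerProductSpace ℝ V] [FiniteDimensional ℝ V]
  [MeasurableSpace V] [BorelSpace V]
  {H : Type*} [NormedAddCommGroup H] [InnerProductSpace ℂ H] [CompleteSpace H]
  {J : V →ₗᵢ[ℝ] V} {W : V → H →L[ℂ] H}

/-- The symplectic group. -/
def symplecticAut (J : V →ₗᵢ[ℝ] V) : Subgroup (V ≃ₗ[ℝ] V) where
  carrier := {A | ∀ x y, omega J (A x) (A y) = omega J x y}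
  one_mem' _ _ := rfl
  mul_mem' {A B} hA hB x y := (hA (B x) (B y)).trans (hB x y)
  inv_mem' {A} hA x y := by
    have h := hA (A.symm x) (A.symm y)
    rw [A.apply_symm_apply, A.apply_symm_apply] at h
    exact h.symm

/-- The scalar unitary operators. -/
def scalarUnitaries (H : Type*) [NormedAddCommGroup H] [InnerProductSpace ℂ H] :
    Subgroup (H ≃ₗᵢ[ℂ] H) where
  carrier := {T | ∃ a : ℂ, ∀ u, T u = a • u}
  one_mem' := ⟨1, fun u => by simp⟩
  mul_mem' := by
    rintro S T ⟨a, ha⟩ ⟨b, hb⟩
    exact ⟨a * b, fun u => by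
      rw [LinearIsometryEquiv.coe_mul, Function.comp_apply, hb, ha, smul_smul]⟩
  inv_mem' := by
    rintro T ⟨a, ha⟩
    refine ⟨a⁻¹, fun u => T.injective ?_⟩
    rw [map_smul, LinearIsometryEquiv.coe_inv, T.apply_symm_apply, ha, smul_smul]
    rcases eq_or_ne u 0 with rfl | hu
    · simp
    · have h0 : a ≠ 0 := fun h => hu (T.injective (by rw [ha, map_zero, h, zero_smul]))
      rw [inv_mul_cancel₀ h0, one_smul]

instance : (scalarUnitaries H).Normal where
  conj_mem := by
    rintro T ⟨a, ha⟩ S
    exact ⟨a, fun u => by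
      simp [LinearIsometryEquiv.coe_mul, LinearIsometryEquiv.coe_inv, ha]⟩

/-- A symplectic automorphism carries systems to systems. -/
theorem IsWeylSystem.comp_symplectic (hW : IsWeylSystem J W) (A : symplecticAut J) :
    IsWeylSystem J fun x => W (A.1 x) where
  mul x y v := by rw [hW.mul, A.2, map_add]
  zero v := by simp [hW.zero]
  norm_map x v := hW.norm_map _ v
  continuous_apply v := (hW.continuous_apply v).comp A.1.toLinearMap.continuous_of_finiteDimensional

theorem IsIrreducibleSystem.comp_surjective (hirr : IsIrreducibleSystem W) {f : V → V}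
    (hf : Function.Surjective f) : IsIrreducibleSystem fun x => W (f x) :=
  ⟨hirr.1, fun S hS hinv => hirr.2 S hS fun x v hv => by
    obtain ⟨y, rfl⟩ := hf x
    exact hinv y v hv⟩

variable (hJ : ∀ x, J (J x) = -x) (hW : IsWeylSystem J W) (hirr : IsIrreducibleSystem W)

include hJ hW hirr

theorem exists_implementer (A : symplecticAut J) :
    ∃ T : H ≃ₗᵢ[ℂ] H, ∀ x u, T (W x u) = W (A.1 x) (T u) :=
  exists_intertwiner hW (hW.comp_symplectic A) hJ hirr (hirr.comp_surjective A.1.surjective)

/-- An operator implementing a symplectic automorphism. -/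
def implementer (A : symplecticAut J) : H ≃ₗᵢ[ℂ] H := (exists_implementer hJ hW hirr A).choose

theorem implementer_spec (A : symplecticAut J) (x : V) (u : H) :
    implementer hJ hW hirr A (W x u) = W (A.1 x) (implementer hJ hW hirr A u) :=
  (exists_implementer hJ hW hirr A).choose_spec x u

theorem implementer_unique (A : symplecticAut J) (T : H ≃ₗᵢ[ℂ] H)
    (hT : ∀ x u, T (W x u) = W (A.1 x) (T u)) :
    ∃ a : ℂ, ‖a‖ = 1 ∧ ∀ u, T u = a • implementer hJ hW hirr A u :=
  intertwiner_unique hW hJ hirr T _ hT (implementer_spec hJ hW hirr A)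

/-- **The projective Weil representation.** -/
def weilRep : symplecticAut J →* (H ≃ₗᵢ[ℂ] H) ⧸ scalarUnitaries H :=
  MonoidHom.mk' (fun A => ((implementer hJ hW hirr A : H ≃ₗᵢ[ℂ] H) : _ ⧸ scalarUnitaries H))
    fun A B => by
    obtain ⟨a, ha, h⟩ := implementer_unique hJ hW hirr (A * B)
      (implementer hJ hW hirr A * implementer hJ hW hirr B) fun x u => by
        simp only [LinearIsometryEquiv.coe_mul, Function.comp_apply, implementer_spec]
        rfl
    refine QuotientGroup.eq.2 ⟨a, fun u => ?_⟩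
    rw [LinearIsometryEquiv.coe_mul, Function.comp_apply, h, map_smul]
    refine (implementer hJ hW hirr (A * B)).injective ?_
    simp [LinearIsometryEquiv.coe_inv]

omit hirr in
theorem omega_eq_zero_of_scalar
    (hne : ∃ v : H, v ≠ 0) {z : V} (c : ℂ) (hz : ∀ v, W z v = c • v) : z = 0 := by
  obtain ⟨v, hv⟩ := hne
  have key : ∀ y, cexp (I * (omega J z y : ℂ)) = 1 := fun y => by
    have h1 : W z (W y v) = W y (W z v) := by rw [hz, hz, map_smul]
    rw [hW.mul, hW.mul, add_comm y z, omega_swap hJ z y] at h1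
    have hv' : W (z + y) v ≠ 0 := fun h => hv (norm_eq_zero.1 (by rw [← hW.norm_map (z + y), h,
      norm_zero]))
    have h2 := smul_left_injective ℂ hv' h1
    rw [show I * (omega J z y : ℂ) = I * (omega J z y : ℂ) / 2 -
      I * ((-omega J z y : ℝ) : ℂ) / 2 by push_cast; ring, Complex.exp_sub, h2,
      div_self (Complex.exp_ne_zero _)]
  by_contra hz0
  have hpos : omega J z (J z) = ‖z‖ ^ 2 := by rw [omega, real_inner_self_eq_norm_sq, J.norm_map]
  have h := key ((Real.pi / ‖z‖ ^ 2) • J z)
  rw [omega_smul_right, hpos, div_mul_cancel₀ _ (pow_ne_zero 2 (norm_ne_zero_iff.2 hz0)),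
    mul_comm, Complex.exp_pi_mul_I] at h
  norm_num at h

/-- **The representation is faithful.** -/
theorem weilRep_injective : Function.Injective (weilRep hJ hW hirr) := by
  refine (injective_iff_map_eq_one _).2 fun A hA => Subtype.ext (LinearEquiv.ext fun x => ?_)
  obtain ⟨a, ha⟩ := (QuotientGroup.eq_one_iff _).1 hA
  have h0 : a ≠ 0 := fun h => by
    obtain ⟨v, hv⟩ := hirr.1
    exact hv ((implementer hJ hW hirr A).injective (by rw [ha, map_zero, h, zero_smul]))
  have h1 : ∀ u, W (A.1 x) u = W x u := fun u => by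
    have h2 := implementer_spec hJ hW hirr A x u
    rw [ha, ha, map_smul] at h2
    exact (smul_right_injective H h0 h2).symm
  have h3 : ∀ u, W (A.1 x - x) u = cexp (-(I * (omega J (A.1 x) (-x) : ℂ) / 2)) • u := fun u => by
    have h4 := hW.mul (A.1 x) (-x) u
    rw [h1, apply_apply_neg hJ hW, ← sub_eq_add_neg] at h4
    conv_rhs => rw [h4]
    rw [smul_smul, ← Complex.exp_add, neg_add_cancel, Complex.exp_zero, one_smul]
  exact sub_eq_zero.1 (omega_eq_zero_of_scalar hJ hW hirr.1 _ h3)

omit hirr in
/-- **No finite-dimensional system.** -/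
theorem subsingleton_of_finiteDimensional [FiniteDimensional ℂ H] [Nontrivial V] :
    Subsingleton H := by
  by_contra hne
  rw [not_subsingleton_iff_nontrivial] at hne
  have hd : (Module.finrank ℂ H : ℝ) ≠ 0 := Nat.cast_ne_zero.2 Module.finrank_pos.ne'
  obtain ⟨x, hx⟩ := exists_ne (0 : V)
  set t : ℝ := Real.pi / (Module.finrank ℂ H * ‖x‖ ^ 2)
  set y := t • J x with hy
  have h : (W x : H →ₗ[ℂ] H) ∘ₗ (W y : H →ₗ[ℂ] H) =
      cexp (I * (omega J x y : ℂ)) • ((W y : H →ₗ[ℂ] H) ∘ₗ (W x : H →ₗ[ℂ] H)) :=
    LinearMap.ext fun v => by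
      show W x (W y v) = cexp (I * (omega J x y : ℂ)) • W y (W x v)
      rw [hW.mul, hW.mul, smul_smul, ← Complex.exp_add, add_comm y x, omega_swap hJ x y]
      push_cast
      ring_nf
  have h' := congrArg LinearMap.det h
  rw [LinearMap.det_smul, LinearMap.det_comp, LinearMap.det_comp, mul_comm (LinearMap.det _)] at h'
  have hu : ∀ z, LinearMap.det (W z : H →ₗ[ℂ] H) ≠ 0 := fun z hz => by
    have := (LinearMap.bot_lt_ker_of_det_eq_zero hz).ne'
    refine this ((Submodule.eq_bot_iff _).2 fun v hv => ?_)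
    rw [← apply_neg_apply hJ hW z v, show W z v = 0 from hv, map_zero]
  have h1 := mul_eq_right₀ (mul_ne_zero (hu y) (hu x)) |>.1 h'.symm
  rw [← Complex.exp_nat_mul, hy, omega_smul_right, omega, real_inner_self_eq_norm_sq,
    J.norm_map] at h1
  have e : (Module.finrank ℂ H : ℂ) * (I * ((t * ‖x‖ ^ 2 : ℝ) : ℂ)) = Real.pi * I := by
    have : (Module.finrank ℂ H : ℝ) * (t * ‖x‖ ^ 2) = Real.pi := by
      have := norm_ne_zero_iff.2 hx
      simp only [t]
      field_simp
    rw [← this]
    push_cast
    ring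
  rw [e, Complex.exp_pi_mul_I] at h1
  norm_num at h1

omit hJ hW hirr

variable {n : ℕ}

/-- The block action of a `2 × 2` matrix on phase space. -/
def blockMap (g : Matrix (Fin 2) (Fin 2) ℝ) : Phase n →ₗ[ℝ] Phase n where
  toFun x := WithLp.toLp 2 (g 0 0 • x.fst + g 0 1 • x.snd, g 1 0 • x.fst + g 1 1 • x.snd)
  map_add' x y := by
    refine WithLp.ofLp_injective 2 (Prod.ext ?_ ?_) <;> simp [smul_add, add_add_add_comm]
  map_smul' c x := by
    refine WithLp.ofLp_injective 2 (Prod.ext ?_ ?_) <;> simp [smul_comm c]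

theorem blockMap_mul (g h : Matrix (Fin 2) (Fin 2) ℝ) :
    blockMap (n := n) (g * h) = blockMap g * blockMap h := by
  refine LinearMap.ext fun x => WithLp.ofLp_injective 2 (Prod.ext ?_ ?_) <;>
    simp [blockMap, Matrix.mul_apply, Fin.sum_univ_two, smul_add, add_smul, smul_smul] <;> abel

theorem blockMap_one : blockMap (n := n) (1 : Matrix (Fin 2) (Fin 2) ℝ) = 1 := by
  refine LinearMap.ext fun x => WithLp.ofLp_injective 2 (Prod.ext ?_ ?_) <;> simp [blockMap]

theorem omega_blockMap (g : Matrix (Fin 2) (Fin 2) ℝ) (x y : Phase n) :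
    omega (phaseJ n) (blockMap g x) (blockMap g y) = g.det * omega (phaseJ n) x y := by
  simp only [omega_phase, blockMap, LinearMap.coe_mk, AddHom.coe_mk, WithLp.toLp_fst,
    WithLp.toLp_snd, inner_add_left, inner_add_right, real_inner_smul_left, real_inner_smul_right,
    Matrix.det_fin_two]
  ring

/-- The special linear group inside the symplectic group. -/
def blockHom : SL(2, ℝ) →* symplecticAut (phaseJ n) :=
  MonoidHom.mk' (fun g => ⟨LinearEquiv.ofLinearMap (blockMap (g : Matrix (Fin 2) (Fin 2) ℝ))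
      (blockMap ((g⁻¹ : SL(2, ℝ)) : Matrix (Fin 2) (Fin 2) ℝ))
      (by rw [← Module.End.mul_eq_comp, ← blockMap_mul, ← Matrix.SpecialLinearGroup.coe_mul,
        mul_inv_cancel, Matrix.SpecialLinearGroup.coe_one, blockMap_one]; rfl)
      (by rw [← Module.End.mul_eq_comp, ← blockMap_mul, ← Matrix.SpecialLinearGroup.coe_mul,
        inv_mul_cancel, Matrix.SpecialLinearGroup.coe_one, blockMap_one]; rfl),
      fun x y => (omega_blockMap _ x y).trans (by rw [g.2, one_mul])⟩)
    fun g h => Subtype.ext (LinearEquiv.ext fun x => by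
      show blockMap ((g * h : SL(2, ℝ)) : Matrix (Fin 2) (Fin 2) ℝ) x =
        blockMap g.1 (blockMap h.1 x)
      rw [Matrix.SpecialLinearGroup.coe_mul, blockMap_mul]
      rfl)

theorem blockHom_injective [NeZero n] : Function.Injective (blockHom (n := n)) := by
  intro g h hgh
  set e : EuclideanSpace ℝ (Fin n) := EuclideanSpace.single 0 1
  have he : e ≠ 0 := by simp [e]
  have h1 := fun x => LinearEquiv.congr_fun (congrArg Subtype.val hgh) x
  have ha := congrArg WithLp.fst (h1 (WithLp.toLp 2 (e, 0)))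
  have hb := congrArg WithLp.fst (h1 (WithLp.toLp 2 (0, e)))
  have hc := congrArg WithLp.snd (h1 (WithLp.toLp 2 (e, 0)))
  have hd := congrArg WithLp.snd (h1 (WithLp.toLp 2 (0, e)))
  simp [blockHom, blockMap] at ha hb hc hd
  refine Subtype.ext (Matrix.ext fun i j => ?_)
  fin_cases i <;> fin_cases j <;> simp only [Fin.zero_eta, Fin.mk_one]
  exacts [smul_left_injective ℝ he ha, smul_left_injective ℝ he hb, smul_left_injective ℝ he hc,
    smul_left_injective ℝ he hd]

end FA.StoneVonNeumann

end
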